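import Fermat.Agent.TWPrimes.Group.Bridge
import Fermat.Agent.Lowering.P1.Primes.Target

/-!
# Auxiliary primes

An element fixing the roots of unity of `p`-power order, with distinct eigenvalues, on which the
trace of the class times the representation is not zero, is realised by a Frobenius element.
-/

set_option autoImplicit false
set_option linter.unusedSectionVars false

noncomputable section

open scoped Pointwise

namespace FLTAgent.TWPrimes

open FLTAgent.PoitouTate
open FLTAgent.Lowering.P1.Primes (commutator_root exists_frobenius_zpowers dvd_sub_one_of_fix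
  exists_conj_of_frobenius)

local notation "LL" => AlgebraicClosure ℚ
local notation "GG" => (AlgebraicClosure ℚ ≃ₐ[ℚ] AlgebraicClosure ℚ)
local notation "VS" => ValuationSubring (AlgebraicClosure ℚ)
local notation "Dec" => ValuationSubring.decompositionSubgroup ℚ

variable {p : ℕ} [Fact p.Prime] {k : Type} [Field k] [Algebra (ZMod p) k] (D : Datum p k)

local notation "M2" => Matrix (Fin 2) (Fin 2) k

/-- The discriminant of the characteristic polynomial. -/
def disc (A : M2) : k := Matrix.trace A ^ 2 - 4 * Matrix.det A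

theorem disc_pow (g : GL (Fin 2) k) (i : ℕ) (h : disc (g : M2) = 0) :
    disc ((g ^ i : GL (Fin 2) k) : M2) = 0 := by
  obtain ⟨x, y, e⟩ : ∃ x y : k, ((g ^ i : GL (Fin 2) k) : M2) = x • 1 + y • (g : M2) := by
    induction i with
    | zero => exact ⟨1, 0, by simp⟩
    | succ i ih =>
      obtain ⟨x, y, e⟩ := ih
      refine ⟨-(y * Matrix.det (g : M2)), x + y * Matrix.trace (g : M2), ?_⟩
      rw [pow_succ, Units.val_mul, e]
      ext a b
      fin_cases a <;> fin_cases b <;>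
        simp [Matrix.mul_apply, Fin.sum_univ_two, Matrix.trace_fin_two, Matrix.det_fin_two] <;> ring
  rw [e, disc]
  rw [disc, Matrix.trace_fin_two, Matrix.det_fin_two] at h
  simp only [Matrix.trace_fin_two, Matrix.det_fin_two, Matrix.add_apply, Matrix.smul_apply,
    smul_eq_mul, Matrix.one_apply_eq, ne_eq, Fin.isValue, zero_ne_one, not_false_eq_true,
    Matrix.one_apply_ne, one_ne_zero, mul_zero, zero_add, mul_one]
  linear_combination y ^ 2 * h

/-- A Frobenius element at an auxiliary prime realising a given element on a finite level. -/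
theorem exists_aux (n : ℕ) (avoid : Finset Nat.Primes) (σ : GG) {ζ : LL}
    (hζ : IsPrimitiveRoot ζ (p ^ (n + 1))) (hσζ : σ ζ = ζ)
    (hσ : disc (D.rb σ : M2) ≠ 0) (F : IntermediateField ℚ LL) [FiniteDimensional ℚ F] :
    ∃ (q : Nat.Primes) (V : VS) (τ : GG) (i : ℕ), q ∉ avoid ∧ IsAux D n q ∧
      V.LiesOverPrime (q : ℕ) ∧ V.IsFrobeniusAt τ (q : ℕ) ∧ (τ ^ i)⁻¹ * σ ∈ F.fixingSubgroup ∧
      D.rb σ = D.rb (τ ^ i) := by
  classical
  have hp := (Fact.out : p.Prime)
  haveI : NeZero (p ^ (n + 1)) := ⟨pow_ne_zero _ hp.ne_zero⟩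
  obtain ⟨L₀, hL₀, hlev⟩ := D.level
  haveI : Algebra.IsAlgebraic ℚ LL := AlgebraicClosure.isAlgebraic ℚ
  haveI : FiniteDimensional ℚ (IntermediateField.adjoin ℚ ({ζ} : Set LL)) :=
    IntermediateField.adjoin.finiteDimensional (Algebra.IsAlgebraic.isAlgebraic ζ).isIntegral
  set E := F ⊔ L₀ ⊔ IntermediateField.adjoin ℚ ({ζ} : Set LL)
  haveI : Normal ℚ LL := normal_iff.2 fun x =>
    ⟨(Algebra.IsAlgebraic.isAlgebraic x).isIntegral, IsAlgClosed.splits _⟩
  set N := IntermediateField.normalClosure ℚ E LL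
  haveI : FiniteDimensional ℚ N := normalClosure.is_finiteDimensional ℚ E LL
  haveI : Normal ℚ N := normalClosure.normal ℚ E LL
  have hEN : E ≤ N := IntermediateField.le_normalClosure E
  obtain ⟨q, V, τ, i, j, hq, hqS, hV, hτ, hj, hi⟩ :=
    exists_frobenius_zpowers N σ ((avoid ∪ D.bad).image (fun r : Nat.Primes => (r : ℕ)) ∪ {p})
  simp only [Finset.mem_union, Finset.mem_singleton, not_or] at hqS
  obtain ⟨hqi, hqp⟩ := hqS
  set q' : Nat.Primes := ⟨q, hq⟩
  have hqa : q' ∉ avoid ∪ D.bad := fun h => hqi (Finset.mem_image.2 ⟨q', h, rfl⟩)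
  rw [Finset.mem_union, not_or] at hqa
  have hfix : ∀ s ∈ N.fixingSubgroup, ∀ x ∈ E, s x = x := fun s hs x hx =>
    (IntermediateField.mem_fixingSubgroup_iff N s).1 hs x (hEN hx)
  have hrb : ∀ a b : GG, a⁻¹ * b ∈ N.fixingSubgroup → D.rb b = D.rb a := fun a b hs => by
    have h1 : D.rb (a⁻¹ * b) = 1 := hlev _ fun x hx => hfix _ hs x
      ((le_sup_right.trans le_sup_left : L₀ ≤ E) hx)
    rw [show b = a * (a⁻¹ * b) by group, map_mul, h1, mul_one]
  have hτζ : τ ζ = ζ := by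
    have h1 : ((σ ^ j)⁻¹ * τ : GG) ζ = ζ := hfix _ hj ζ
      ((le_sup_right : IntermediateField.adjoin ℚ ({ζ} : Set LL) ≤ E)
        (IntermediateField.mem_adjoin_simple_self ℚ ζ))
    rw [show τ = σ ^ j * ((σ ^ j)⁻¹ * τ) by group, AlgEquiv.mul_apply, h1]
    clear h1 hj
    induction j with
    | zero => rfl
    | succ j ih => rw [pow_succ, AlgEquiv.mul_apply, hσζ, ih]
  have hdvd : p ^ (n + 1) ∣ q - 1 := dvd_sub_one_of_fix hq hV
    (fun h => hqp ((Nat.prime_dvd_prime_iff_eq hq hp).1 (hq.dvd_of_dvd_pow h))) hζ hτ hτζ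
  have hrbi : D.rb σ = D.rb (τ ^ i) := hrb _ _ hi
  have hdτ : disc (D.rb τ : M2) ≠ 0 := fun h => hσ (by
    rw [hrbi, map_pow]; exact disc_pow _ i h)
  refine ⟨q', V, τ, i, hqa.1, ⟨hqa.2, hdvd, fun W hW φ hφ => ?_⟩, hV, hτ, ?_, hrbi⟩
  · obtain ⟨g, hg⟩ := exists_conj_of_frobenius D.rb hq (D.unramified q' hqa.2) hV hW hτ hφ
    obtain ⟨a, b, h1, h2⟩ := D.split φ
    refine ⟨a, b, fun hab => hdτ ?_, h1, h2⟩
    have e1 : disc (D.rb φ : M2) = disc (D.rb τ : M2) := by
      rw [disc, disc, hg, Units.val_mul, Units.val_mul, Matrix.trace_units_conj,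
        Matrix.det_units_conj]
    rw [← e1, disc, h1, h2, hab]
    ring
  · exact IntermediateField.fixingSubgroup_antitone
      ((le_sup_left.trans le_sup_left).trans hEN) hi

/-- The elements with distinct eigenvalues among those fixing a root of unity. -/
theorem exists_sigma [Finite k] (n : ℕ) {ζ : LL} (hζ : IsPrimitiveRoot ζ (p ^ (n + 1))) :
    ∃ σ : GG, σ ζ = ζ ∧ disc (D.rb σ : M2) ≠ 0 := by
  haveI := charP_coeff (p := p) (k := k)
  haveI : NeZero (p ^ (n + 1)) := ⟨pow_ne_zero _ (Fact.out : p.Prime).ne_zero⟩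
  have h2 : (2 : k) ≠ 0 := Image.two_ne p D.ne_two
  set N : Subgroup (GL (Fin 2) k) := (MulAction.stabilizer GG ζ).map D.rb
  have hN : Image.NoLine N := by
    refine Image.noLine_of_commutators h2 (big D) N ?_ ?_
    · rintro _ ⟨g, rfl⟩ _ ⟨m, hm, rfl⟩
      refine ⟨g * m * g⁻¹, ?_, by simp⟩
      have h1 := commutator_root hζ g m
      have hm' : m ζ = ζ := hm
      rw [AlgEquiv.mul_apply, show (m⁻¹ : GG) ζ = ζ by
        conv_lhs => rw [← hm']
        exact m.symm_apply_apply ζ] at h1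
      exact h1
    · rintro _ ⟨g, rfl⟩ _ ⟨h, rfl⟩
      exact ⟨g * h * g⁻¹ * h⁻¹, commutator_root hζ g h, by simp⟩
  obtain ⟨_, ⟨σ, hσ, rfl⟩, hd⟩ := Image.exists_distinct h2 hN
  exact ⟨σ, hσ, hd⟩

/-- A class which is not a coboundary is seen by an element as above. -/
theorem exists_seeing [Finite k] (n : ℕ) {ζ : LL} (hζ : IsPrimitiveRoot ζ (p ^ (n + 1)))
    (c : GG → W k) (hc : ∀ g h, c (g * h) = c g + ad D 1 g (c h))
    (hnot : c ∉ B1 (ad D 1) (MonoidHom.id GG)) :
    ∃ σ : GG, σ ζ = ζ ∧ disc (D.rb σ : M2) ≠ 0 ∧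
      Matrix.trace ((c σ).1 * (D.rb σ : M2)) ≠ 0 := by
  haveI := charP_coeff (p := p) (k := k)
  haveI : NeZero (p ^ (n + 1)) := ⟨pow_ne_zero _ (Fact.out : p.Prime).ne_zero⟩
  have h2 : (2 : k) ≠ 0 := Image.two_ne p D.ne_two
  have hone : c 1 = 0 := by
    have h := hc 1 1
    rw [mul_one, map_one, Module.End.one_apply, left_eq_add] at h
    exact h
  have hconj : ∀ g h : GG, D.rb h = 1 → c (g * h * g⁻¹) = ad D 1 g (c h) := fun g h hh => by
    have h0 := hc g g⁻¹
    rw [mul_inv_cancel, hone] at h0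
    have hgh : ad D 1 (g * h) (c g⁻¹) = ad D 1 g (c g⁻¹) := Subtype.ext (by
      rw [ad_val, ad_val, map_mul, hh, mul_one])
    rw [hc (g * h) g⁻¹, hgh, hc g h]
    linear_combination (norm := abel) -h0
  obtain ⟨h₁, h₁k, h₁ζ, h₁c⟩ : ∃ h : GG, D.rb h = 1 ∧ h ζ = ζ ∧ c h ≠ 0 := by
    by_contra hH
    push Not at hH
    refine hnot ((targetCyc p k D).2 c hc fun h hh => ?_)
    have hinv : ∀ g : GG, ad D 1 g (c h) = c h := fun g => by
      have h1 : D.rb (g * h * g⁻¹ * h⁻¹) = 1 := by simp [hh]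
      have h2 := hH _ h1 (commutator_root hζ g h)
      have h3 := hconj g h hh
      rw [show g * h * g⁻¹ = g * h * g⁻¹ * h⁻¹ * h by group, hc, h2, zero_add] at h3
      refine h3.symm.trans (Subtype.ext ?_)
      rw [ad_val, h1, Image.adj_one]
    by_contra hne
    refine Image.no_invariant_line h2 (big D) (A := (c h).1) (fun e => hne (Subtype.ext e))
      (LinearMap.mem_ker.1 (c h).2) ?_
    rintro _ ⟨g, rfl⟩
    refine ⟨(Matrix.det (D.rb g : M2))⁻¹, ?_⟩
    have e := congrArg Subtype.val (hinv g)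
    rw [ad_val, Image.adj_apply, pow_one] at e
    conv_rhs => rw [← e]
    rw [smul_mul_assoc, Units.inv_mul_cancel_right, smul_smul,
      inv_mul_cancel₀ (Image.det_val_ne _), one_smul]
  obtain ⟨σ₀, hσ₀, hd⟩ := exists_sigma D n hζ
  let S : Set M2 := {X | ∃ h : GG, D.rb h = 1 ∧ h ζ = ζ ∧ X = (c h).1}
  have hspan : Image.tz ≤ Submodule.span k S := by
    refine (Image.tz_irreducible h2 (big D) (Submodule.span k S)
      (Submodule.span_le.2 ?_) ?_).resolve_left ?_
    · rintro _ ⟨h, -, -, rfl⟩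
      exact (c h).2
    · rintro _ ⟨g, rfl⟩ X hX
      have hle : Submodule.span k S ≤ (Submodule.span k S).comap (Image.adj 1 (D.rb g)) := by
        refine Submodule.span_le.2 ?_
        rintro _ ⟨h, hh, hhζ, rfl⟩
        refine Submodule.subset_span ⟨g * h * g⁻¹, by simp [hh], ?_, ?_⟩
        · have h1 := commutator_root hζ g h
          rw [AlgEquiv.mul_apply, show (h⁻¹ : GG) ζ = ζ by
            conv_lhs => rw [← hhζ]
            exact h.symm_apply_apply ζ] at h1
          exact h1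
        · rw [hconj g h hh, ad_val]
      have h1 := Submodule.smul_mem (Submodule.span k S) (Matrix.det (D.rb g : M2))⁻¹ (hle hX)
      rwa [Image.adj_apply, pow_one, smul_smul, inv_mul_cancel₀ (Image.det_val_ne _),
        one_smul] at h1
    · intro hb
      exact h₁c (Subtype.ext ((Submodule.mem_bot k).1
        (hb ▸ Submodule.subset_span ⟨h₁, h₁k, h₁ζ, rfl⟩)))
  set g₀ := D.rb σ₀ with hg₀
  obtain ⟨h, hh, hhζ, hne⟩ : ∃ h : GG, D.rb h = 1 ∧ h ζ = ζ ∧
      Matrix.trace ((c h).1 * (g₀ : M2)) ≠ 0 := by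
    by_contra hall
    push Not at hall
    have hzero : ∀ X ∈ (Image.tz : Submodule k M2), Matrix.trace (X * (g₀ : M2)) = 0 :=
      fun X hX => by
        have hX' := hspan hX
        clear hX
        induction hX' using Submodule.span_induction with
        | mem x hx => obtain ⟨h, a, b, rfl⟩ := hx; exact hall h a b
        | zero => simp
        | add x y _ _ hx hy => rw [add_mul, Matrix.trace_add, hx, hy, add_zero]
        | smul a x _ hx => rw [smul_mul_assoc, Matrix.trace_smul, hx, smul_zero]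
    have e1 := hzero !![1, 0; 0, -1] (by simp [Image.mem_tz, Matrix.trace_fin_two])
    have e2 := hzero !![0, 1; 0, 0] (by simp [Image.mem_tz, Matrix.trace_fin_two])
    have e3 := hzero !![0, 0; 1, 0] (by simp [Image.mem_tz, Matrix.trace_fin_two])
    simp [Matrix.trace_fin_two, Matrix.vecMul, dotProduct, Fin.sum_univ_two] at e1 e2 e3
    refine hd ?_
    rw [disc, Matrix.trace_fin_two, Matrix.det_fin_two, e2]
    linear_combination ((g₀ : M2) 0 0 - (g₀ : M2) 1 1) * e1
  have hom : Matrix.det (g₀ : M2) = 1 := by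
    have hp' : IsPrimitiveRoot (ζ ^ p ^ n) p :=
      hζ.pow (pow_pos (Fact.out : p.Prime).pos _) (pow_succ p n)
    rw [hg₀, D.det_cyclo, om_eq_one_of_fix hp' (by rw [map_pow, hσ₀]), map_one]
  have hrb : D.rb (σ₀ * h) = g₀ := by rw [map_mul, hh, mul_one]
  by_cases h0 : Matrix.trace ((c σ₀).1 * (g₀ : M2)) = 0
  · refine ⟨σ₀ * h, by rw [AlgEquiv.mul_apply, hhζ, hσ₀], by rw [hrb]; exact hd, ?_⟩
    rw [hrb, hc, Submodule.coe_add, ad_val, add_mul, Matrix.trace_add, h0, zero_add,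
      Image.adj_apply, hom, pow_one, one_smul, Units.inv_mul_cancel_right, Matrix.trace_mul_comm]
    exact hne
  · exact ⟨σ₀, hσ₀, hd, h0⟩

/-- A coboundary at a place is one at every place over the same prime. -/
theorem bdy_transport {c : GG → W k} (hc : ∀ g h, c (g * h) = c g + ad D 1 g (c h)) {V : VS}
    {γ : GG} {m : W k} (hm : ∀ x ∈ Dec (γ • V), c x = ad D 1 x m - m) :
    ∃ m' : W k, ∀ x ∈ Dec V, c x = ad D 1 x m' - m' := by
  refine ⟨ad D 1 γ⁻¹ (m + c γ), fun x hx => ?_⟩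
  have hmem : γ * x * γ⁻¹ ∈ Dec (γ • V) := by
    refine MulAction.mem_stabilizer_iff.2 ?_
    rw [mul_smul, mul_smul, inv_smul_smul, MulAction.mem_stabilizer_iff.1 hx]
  have h1 := hm _ hmem
  have h2 : c (γ * x) = c (γ * x * γ⁻¹) + ad D 1 (γ * x * γ⁻¹) (c γ) := by
    rw [← hc, inv_mul_cancel_right]
  rw [hc γ x, h1] at h2
  have h3 := congrArg (ad D 1 γ⁻¹) h2
  simp only [map_add, map_sub, ← Module.End.mul_apply, ← map_mul, inv_mul_cancel, map_one,
    Module.End.one_apply, ← mul_assoc, inv_mul_cancel_left] at h3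
  simp only [map_add, ← Module.End.mul_apply, ← map_mul]
  rw [one_mul] at h3
  linear_combination (norm := abel) h3

/-- Auxiliary primes. -/
theorem targetPrimes : TargetPrimes := by
  intro p _ k _ _ _ D n avoid
  haveI := charP_coeff (p := p) (k := k)
  haveI : NeZero (p ^ (n + 1)) := ⟨pow_ne_zero _ (Fact.out : p.Prime).ne_zero⟩
  obtain ⟨ζ, hζ⟩ := HasEnoughRootsOfUnity.exists_primitiveRoot LL (p ^ (n + 1))
  refine ⟨?_, fun S c hcS hnot => ?_⟩
  · obtain ⟨σ, hσζ, hσ⟩ := exists_sigma D n hζ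
    obtain ⟨q, V, τ, i, hqa, haux, -⟩ := exists_aux D n avoid σ hζ hσζ hσ ⊥
    exact ⟨q, hqa, haux⟩
  · obtain ⟨⟨F, hF, hlev⟩, hc⟩ := hcS.1
    have hc' : ∀ g h, c (g * h) = c g + ad D 1 g (c h) := hc
    obtain ⟨σ, hσζ, hσ, hσT⟩ := exists_seeing D n hζ c hc' hnot
    obtain ⟨q, V, τ, i, hqa, haux, hV, hτ, hi, hrb⟩ := exists_aux D n avoid σ hζ hσζ hσ F
    refine ⟨q, hqa, haux, fun W hW hmem => hσT ?_⟩
    obtain ⟨γ, rfl⟩ := Places.exists_smul_eq q.2 hV hW
    obtain ⟨m, hm⟩ := hmem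
    obtain ⟨m', hm'⟩ := bdy_transport D hc' (V := V) (γ := γ) (m := m)
      fun x hx => (congrFun hm ⟨x, hx⟩).symm
    have hcσ : c σ = c (τ ^ i) := by
      rw [show σ = τ ^ i * ((τ ^ i)⁻¹ * σ) by group]
      exact hlev _ _ hi
    have hdet : Matrix.det (D.rb (τ ^ i) : Matrix (Fin 2) (Fin 2) k) = 1 := by
      have hp' : IsPrimitiveRoot (ζ ^ p ^ n) p :=
        hζ.pow (pow_pos (Fact.out : p.Prime).pos _) (pow_succ p n)
      rw [← hrb, D.det_cyclo, om_eq_one_of_fix hp' (by rw [map_pow, hσζ]), map_one]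
    rw [hcσ, hrb, hm' _ (pow_mem hτ.mem_decompositionSubgroup i), Submodule.coe_sub, ad_val,
      sub_mul, Matrix.trace_sub, Image.adj_apply, hdet, pow_one, one_smul,
      Units.inv_mul_cancel_right, Matrix.trace_mul_comm, sub_self]

end FLTAgent.TWPrimes
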